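import Fermat.Agent.A3.GR.Leaves
import Fermat.Agent.S19.H195.GenusGood
import Fermat.Agent.S19.H195.RedDatum
import Fermat.Agent.S18.H9.Res

/-!
# A3 / GOODRED-INST — leaf GENUS  (helper195)

`genusStatement_of_good` : `GenusStatement A M` (equal genus of `F_M = ℚ̄(X₀(M))` and of
`F_{M,k} = k(X₀(M))`) from

* a reduction datum `G : S37.Red.Datum A (residue A) F_M F_{M,k}` with `G.Good`
  (output of `S37.Core.DatumStatement`, or `S37.H579.good_modGj` from normality `LiftFin`/`LiftInf`),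
  used for `g(F_M) ≤ g(F_{M,k})` (`S19.H195.GenusGood.genusFF_le_of_good`);
* the leaves `RimStatement A M` and `OrthoStatement A M`, used for `g(F_{M,k}) ≤ g(F_M)`
  (upper semicontinuity, `S19.H195.RedDatum.genusFF_le`).

Abstract parts: `redDatumOfCtx` (a `S19.H195.RedDatum` from a context of helper940 and a place
map), `genusFF_ge_of_ctx`.
-/

set_option autoImplicit false
set_option synthInstance.maxHeartbeats 400000
set_option linter.unusedSectionVars false
set_option linter.style.haveILetI false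

noncomputable section

namespace Fermat.Agent.A3.GR.H195

open AlgebraicCurve ModularCurve HahnSeries IsLocalRing
open Fermat.Agent.Lib.RR Fermat.Agent.S37.Rim Fermat.Agent.S37.H940 Fermat.Agent.A3.H799

section Abstract

variable {K F k Fk : Type*} [Field K] [Field F] [Algebra K F] [Field k] [Field Fk] [Algebra k Fk]

/-- constants in `V` are in `A` -/
theorem mem_A_of_mem_V (C : Ctx K F k Fk) {a : K} (h : algebraMap K F a ∈ C.V) : a ∈ C.A := by
  by_contra ha
  have ha0 : a ≠ 0 := fun h0 => ha (h0 ▸ C.A.zero_mem)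
  have hinv : a⁻¹ ∈ C.A := (C.A.mem_or_inv_mem a).resolve_left ha
  have hnu : ¬ IsUnit (⟨a⁻¹, hinv⟩ : C.A) := by
    intro hu
    obtain ⟨b, hb⟩ := hu.exists_right_inv
    have h1 : a⁻¹ * (b : K) = 1 := congrArg Subtype.val hb
    have h2 : (b : K) = a := by
      field_simp at h1
      exact h1
    exact ha (h2 ▸ b.2)
  have h0 : C.π ⟨a⁻¹, hinv⟩ = 0 := (C.π_eq_zero _).mpr hnu
  have h3 : C.ρ ⟨algebraMap K F a, h⟩ * C.ρ (C.const ⟨a⁻¹, hinv⟩) = 1 := by
    rw [← map_mul]
    have : (⟨algebraMap K F a, h⟩ : C.V) * C.const ⟨a⁻¹, hinv⟩ = 1 := by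
      apply Subtype.ext
      show algebraMap K F a * algebraMap K F a⁻¹ = 1
      rw [← map_mul, mul_inv_cancel₀ ha0, map_one]
    rw [this, map_one]
  rw [C.ρ_const, h0, map_zero, mul_zero] at h3
  exact zero_ne_one h3

/-- the abstract reduction datum of `S19/H195/RedDatum.lean` from a context and a place map -/
def redDatumOfCtx (C : Ctx K F k Fk) (r : Place K F → Place k Fk)
    (hr : ∀ u : C.V, C.ρ u ≠ 0 → ∀ D : Divisor K F, (∀ P, D P = P.ord (u : F)) →
      ∀ Q, Finsupp.mapDomain r D Q = Q.ord (C.ρ u)) :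
    Fermat.Agent.S19.H195.RedDatum K F k Fk where
  V := C.V
  red := C.ρ
  r := r
  const_total a := by
    rcases C.A.mem_or_inv_mem a with h | h
    · exact Or.inl (C.A_mem ⟨a, h⟩)
    · exact Or.inr (C.A_mem ⟨a⁻¹, h⟩)
  red_const a h := ⟨C.π ⟨a, mem_A_of_mem_V C h⟩, C.ρ_A ⟨a, mem_A_of_mem_V C h⟩⟩
  red_const_surj b := by
    obtain ⟨a, rfl⟩ := C.π_surj b
    exact ⟨(a : K), C.A_mem a, C.ρ_A a⟩
  red_const_unit a h hne := by
    have := C.inv_mem ⟨algebraMap K F a, h⟩ hne
    rwa [← map_inv₀] at this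
  ord_red u hu hne D hD Q := hr ⟨u, hu⟩ hne D hD Q

/-- **Upper semicontinuity of the genus**: `g(F_k) ≤ g(F)` from a place map compatible with
divisors and orthonormal bases of the Riemann–Roch spaces. -/
theorem genusFF_ge_of_ctx [FF1 K F] [FF1 k Fk] (C : Ctx K F k Fk) (r : Place K F → Place k Fk)
    (hr : ∀ u : C.V, C.ρ u ≠ 0 → ∀ D : Divisor K F, (∀ P, D P = P.ord (u : F)) →
      ∀ Q, Finsupp.mapDomain r D Q = Q.ord (C.ρ u))
    (horth : ∀ D : Divisor K F, ∃ (n : ℕ) (b : Fin n → C.V),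
      LinearIndependent k (fun i => C.ρ (b i)) ∧
      (∀ i, ((b i : C.V) : F) ∈ riemannRochSpace D) ∧
      Submodule.span K (Set.range fun i => ((b i : C.V) : F)) = riemannRochSpace D) :
    genusFF k Fk ≤ genusFF K F := by
  refine (redDatumOfCtx C r hr).genusFF_le fun D => ?_
  obtain ⟨n, b, h1, h2, h3⟩ := horth D
  exact ⟨n, fun i => ((b i : C.V) : F), fun i => (b i).2, h2, h3.ge, h1⟩

end Abstract

section Modular

variable {A : ValuationSubring Qb} {M : ℕ}

/-- `g(F_{M,k}) ≤ g(F_M)` from the leaves RIM and ORTHO. -/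
theorem genus_ge [FF1 Qb (FM M)] [FF1 (kA A) (FkM A M)]
    (hR : RimStatement A M) (hO : OrthoStatement A M) :
    genusFF (kA A) (FkM A M) ≤ genusFF Qb (FM M) := by
  obtain ⟨r, -, hr, -⟩ := hR
  refine genusFF_ge_of_ctx (ctx A M) r hr fun D => ?_
  obtain ⟨n, b, h1, h2, h3, -⟩ := hO D
  exact ⟨n, b, h1, h2, h3⟩

/-- `g(F_M) ≤ g(F_{M,k})` from a reduction datum with good charts. -/
theorem genus_le [FF1 Qb (FM M)] [FF1 (kA A) (FkM A M)]
    (G : Fermat.Agent.S37.Red.Datum A (residue A) (FM M) (FkM A M)) (hG : G.Good) :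
    genusFF Qb (FM M) ≤ genusFF (kA A) (FkM A M) := by
  haveI : IsAlgClosed (kA A) := Fermat.Agent.S18.H9.resAlgClosed Qb A
  exact Fermat.Agent.S19.H195.GenusGood.genusFF_le_of_good G hG

/-- **LEAF GENUS** from a reduction datum with good charts and the leaves RIM, ORTHO. -/
theorem genusStatement_of_good [NeZero M] (ℓ : ℕ) (hℓ : ℓ.Prime) (hℓM : ¬ ℓ ∣ M)
    (hA : A.LiesOverPrime ℓ)
    (G : Fermat.Agent.S37.Red.Datum A (residue A) (FM M) (FkM A M)) (hG : G.Good)
    (hR : RimStatement A M) (hO : OrthoStatement A M) : GenusStatement A M := by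
  haveI : FF1 Qb (FM M) := Fermat.Agent.Lib.RR.H864.ff1_modularFunctionFieldBar M
  haveI : FF1 (kA A) (FkM A M) := Fermat.Agent.S18.H383.ff1_residue M ℓ hℓ hℓM A hA
  exact le_antisymm (genus_le G hG) (genus_ge hR hO)

end Modular

end Fermat.Agent.A3.GR.H195

end
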