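import Fermat.Agent.A3.GR.Leaves
import Fermat.Agent.S19.H195.GenusFinal
import Fermat.Agent.S18.H9.Res

/-!
# A3 / GOODRED-INST — leaf GENUS from the datum leaf ALONE  (helper195)

* `genus_eq_modular` : for `ℓ ∤ N`, `A` above `ℓ` and ANY reduction datum
  `G : S37.Red.Datum A (residue A) F_N F_{N,k}` with good charts (`G.Good`):
  `genusFF ℚ̄ F_N = genusFF k F_{N,k}`.
* `genusStatement_of_datum` : the same as the leaf `A3.GR.GenusStatement A M`.
* `genus_eq_of_datumStatement` : the same for all good levels from a hypothesis of the shape of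
  `S37.Core.DatumStatement` (existence of a datum with good charts at good levels).

The statement is literally the field `genus_eq` of `A3.H799.GoodRed` in every GOODRED-INST
assembly (`A3.GR.GenusStatement`, `A3.H739.GenusLeaf`, `S19.H979.GrGenusStatement`: the function
fields are the same up to `abbrev`s).
-/

set_option autoImplicit false
set_option synthInstance.maxHeartbeats 400000
set_option linter.unusedSectionVars false
set_option linter.style.haveILetI false

noncomputable section

namespace Fermat.Agent.A3.GR.H195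

open AlgebraicCurve ModularCurve IsLocalRing
open Fermat.Agent.Lib.RR Fermat.Agent.S37.Rim

/-- **Equal genus of `X₀(N)` over `ℚ̄` and over `k = A/𝔪`**, from a reduction datum with good
charts. -/
theorem genus_eq_modular (N : ℕ) [NeZero N] (ℓ : ℕ) (hℓ : ℓ.Prime) (hℓN : ¬ ℓ ∣ N)
    (A : ValuationSubring Qb) (hA : A.LiesOverPrime ℓ)
    (G : Fermat.Agent.S37.Red.Datum A (residue A) (modularFunctionFieldBar N)
      (modularFunctionFieldFullC (ResidueField A) N)) (hG : G.Good) :
    genusFF Qb (modularFunctionFieldBar N) =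
      genusFF (ResidueField A) (modularFunctionFieldFullC (ResidueField A) N) := by
  haveI : IsAlgClosed (ResidueField A) := Fermat.Agent.S18.H9.resAlgClosed Qb A
  haveI : FF1 Qb (modularFunctionFieldBar N) :=
    Fermat.Agent.Lib.RR.H864.ff1_modularFunctionFieldBar N
  haveI : FF1 (ResidueField A) (modularFunctionFieldFullC (ResidueField A) N) :=
    Fermat.Agent.S18.H383.ff1_residue N ℓ hℓ hℓN A hA
  exact Fermat.Agent.S19.H195.GenusGood.genusFF_eq G hG

/-- **LEAF GENUS** (`A3/GR/Leaves.lean`) from a reduction datum with good charts. -/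
theorem genusStatement_of_datum {A : ValuationSubring Qb} {M : ℕ} [NeZero M] (ℓ : ℕ)
    (hℓ : ℓ.Prime) (hℓM : ¬ ℓ ∣ M) (hA : A.LiesOverPrime ℓ)
    (G : Fermat.Agent.S37.Red.Datum A (residue A) (FM M) (FkM A M)) (hG : G.Good) :
    GenusStatement A M :=
  genus_eq_modular M ℓ hℓ hℓM A hA G hG

/-- Equal genus at all good levels from the existence of reduction data with good charts
(hypothesis of the shape of `S37.Core.DatumStatement`; `P` is any extra property, e.g. the link
to `q`-expansions). -/
theorem genus_eq_of_datumStatement {GoodLevel : ℕ → ℕ → Prop}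
    {P : ∀ (M : ℕ) (A : ValuationSubring Qb),
      Fermat.Agent.S37.Red.Datum A (residue A) (modularFunctionFieldBar M)
        (modularFunctionFieldFullC (ResidueField A) M) → Prop}
    (hD : ∀ (M ℓ : ℕ) [NeZero M], ℓ.Prime → ¬ ℓ ∣ M → GoodLevel M ℓ →
      ∀ A : ValuationSubring Qb, A.LiesOverPrime ℓ →
        ∃ G : Fermat.Agent.S37.Red.Datum A (residue A) (modularFunctionFieldBar M)
            (modularFunctionFieldFullC (ResidueField A) M), G.Good ∧ P M A G)
    (M ℓ : ℕ) [NeZero M] (hℓ : ℓ.Prime) (hℓM : ¬ ℓ ∣ M) (hg : GoodLevel M ℓ)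
    (A : ValuationSubring Qb) (hA : A.LiesOverPrime ℓ) :
    genusFF Qb (modularFunctionFieldBar M) =
      genusFF (ResidueField A) (modularFunctionFieldFullC (ResidueField A) M) := by
  obtain ⟨G, hG, -⟩ := hD M ℓ hℓ hℓM hg A hA
  exact genus_eq_modular M ℓ hℓ hℓM A hA G hG

end Fermat.Agent.A3.GR.H195

end
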